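import Mathlib

/-!
# Rational points on a model of `X₀(15)` (Theorem R for S51)

`FAX015.ratPoints`: the rational points of `y² = A (A - 9) (A - 25)` have `A ∈ {0, 9, 25, 45, 5}`.

Proof: the 2-isogeny `X = A (A - 9) / (A - 25) = (y / (A - 25))²` maps to `Y² = X (X - 1) (X - 81)`,
whose rational points with `X` a square are `X ∈ {0, 1, 81}` (`rat_sq_points`).  This is shown by
a Fermat style descent on the system `M² = e² + A² = 81 e² + B²` (`not_sol`).
-/

set_option autoImplicit false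

namespace FAX015

lemma sq_cases (x : ℤ) : (x % 2 = 0 ∧ x ^ 2 % 4 = 0) ∨ (x % 2 = 1 ∧ x ^ 2 % 8 = 1) := by
  have h8 : x % 8 = 0 ∨ x % 8 = 1 ∨ x % 8 = 2 ∨ x % 8 = 3 ∨ x % 8 = 4 ∨ x % 8 = 5 ∨ x % 8 = 6 ∨
      x % 8 = 7 := by omega
  have h64 : x ^ 2 % 8 = (x % 8) ^ 2 % 8 := by
    simp [pow_two, Int.mul_emod]
  rcases h8 with h | h | h | h | h | h | h | h
  all_goals
    rw [h] at h64
    norm_num at h64
    omega

lemma one_le_sq {x : ℤ} (hx : x ≠ 0) : 1 ≤ x ^ 2 := by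
  have := sq_pos_of_ne_zero hx
  linarith

lemma le_sq (x : ℤ) : x ≤ x ^ 2 := by
  rcases le_or_gt x 0 with h | h
  · nlinarith [sq_nonneg x]
  · nlinarith

lemma neg_le_sq (x : ℤ) : -x ≤ x ^ 2 := by
  have := le_sq (-x)
  simpa using this

lemma bad_k (u v w z k : ℤ) (hvw : ¬ (v % 2 = 0 ∧ w % 2 = 0)) (huz : ¬ (u % 2 = 0 ∧ z % 2 = 0))
    (h1 : w ^ 2 - v ^ 2 = k * u ^ 2) (h2 : 81 * w ^ 2 - v ^ 2 = k * z ^ 2)
    (hk : k = 2 ∨ k = -2 ∨ k = 10 ∨ k = -10 ∨ k = 8 ∨ k = -8 ∨ k = 40 ∨ k = -40) : False := by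
  rcases sq_cases u with ⟨hu, hu2⟩ | ⟨hu, hu2⟩ <;> rcases sq_cases v with ⟨hv, hv2⟩ | ⟨hv, hv2⟩ <;>
  rcases sq_cases w with ⟨hw, hw2⟩ | ⟨hw, hw2⟩ <;> rcases sq_cases z with ⟨hz, hz2⟩ | ⟨hz, hz2⟩ <;>
  rcases hk with rfl | rfl | rfl | rfl | rfl | rfl | rfl | rfl <;> omega

/-- The system of "Claim C". -/
def Sol (M e A B : ℤ) : Prop := e ≠ 0 ∧ M ^ 2 = e ^ 2 + A ^ 2 ∧ M ^ 2 = 81 * e ^ 2 + B ^ 2

lemma good_neg_one (u v w z c : ℤ) (hu : u ≠ 0) (hv : v ≠ 0) (hw : w ≠ 0) (hz : z ≠ 0)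
    (h1 : w ^ 2 - v ^ 2 = -c ^ 2 * u ^ 2) (h2 : 81 * w ^ 2 - v ^ 2 = -c ^ 2 * z ^ 2) :
    ∃ M e A B : ℤ, Sol M e A B ∧ |M| < u ^ 2 * v ^ 2 + w ^ 2 * z ^ 2 := by
  refine ⟨v, w, c * u, c * z, ⟨hw, by linear_combination -h1, by linear_combination -h2⟩, ?_⟩
  have hu2 := one_le_sq hu
  have hv2 := one_le_sq hv
  have hw2 := one_le_sq hw
  have hz2 := one_le_sq hz
  have h3 : v ^ 2 ≤ u ^ 2 * v ^ 2 := by nlinarith
  have h4 : 1 ≤ w ^ 2 * z ^ 2 := by nlinarith
  rw [abs_lt]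
  constructor
  · have := neg_le_sq v
    linarith
  · have := le_sq v
    linarith

lemma good_one (u v w z c : ℤ) (hu : u ≠ 0) (hv : v ≠ 0) (hw : w ≠ 0) (hz : z ≠ 0)
    (hc : c ^ 2 ≤ 16) (hc0 : c ≠ 0)
    (h1 : w ^ 2 - v ^ 2 = c ^ 2 * u ^ 2) (h2 : 81 * w ^ 2 - v ^ 2 = c ^ 2 * z ^ 2) :
    ∃ M e A B : ℤ, Sol M e A B ∧ |M| < u ^ 2 * v ^ 2 + w ^ 2 * z ^ 2 := by
  refine ⟨9 * w, v, c * z, 9 * c * u, ⟨hv, by linear_combination h2, by linear_combination 81 * h1⟩,
    ?_⟩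
  have hu2 := one_le_sq hu
  have hv2 := one_le_sq hv
  have hw2 := one_le_sq hw
  have hz2 := one_le_sq hz
  have hc2 := one_le_sq hc0
  have h5 : 1 ≤ c ^ 2 * u ^ 2 := by nlinarith
  have h6 : 2 ≤ w ^ 2 := by linarith
  have h7 : c ^ 2 * z ^ 2 ≤ 16 * z ^ 2 := by nlinarith
  have h8 : 5 * w ^ 2 ≤ z ^ 2 := by linarith
  have h9 : 10 * w ^ 2 ≤ w ^ 2 * z ^ 2 := by nlinarith
  have h3 : 1 ≤ u ^ 2 * v ^ 2 := by nlinarith
  rw [abs_lt]
  constructor
  · have := neg_le_sq w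
    linarith
  · have := le_sq w
    linarith

lemma good_neg_five (u v w z c : ℤ) (hu : u ≠ 0) (hv : v ≠ 0) (hw : w ≠ 0) (hz : z ≠ 0)
    (hc : c = 1 ∨ c = 2 ∨ c = 4)
    (h1 : w ^ 2 - v ^ 2 = -5 * c ^ 2 * u ^ 2) (h2 : 81 * w ^ 2 - v ^ 2 = -5 * c ^ 2 * z ^ 2) :
    ∃ M e A B : ℤ, Sol M e A B ∧ |M| < u ^ 2 * v ^ 2 + w ^ 2 * z ^ 2 := by
  have hc0 : c ≠ 0 := by rcases hc with rfl | rfl | rfl <;> norm_num
  refine ⟨9 * c * u, c * z, 4 * v, 36 * w, ⟨mul_ne_zero hc0 hz, ?_, ?_⟩, ?_⟩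
  · have : 5 * ((9 * c * u) ^ 2 - ((c * z) ^ 2 + (4 * v) ^ 2)) = 0 := by
      linear_combination 81 * h1 - h2
    linarith
  · have : 5 * ((9 * c * u) ^ 2 - (81 * (c * z) ^ 2 + (36 * w) ^ 2)) = 0 := by
      linear_combination 81 * h1 - 81 * h2
    linarith
  have hu2 := one_le_sq hu
  have hv2 := one_le_sq hv
  have hw2 := one_le_sq hw
  have hz2 := one_le_sq hz
  have hc2 := one_le_sq hc0
  have h5 : 1 ≤ c ^ 2 * z ^ 2 := by nlinarith
  have h6 : 86 ≤ v ^ 2 := by linarith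
  have h7 : 86 * u ^ 2 ≤ u ^ 2 * v ^ 2 := by nlinarith
  have h4 : 1 ≤ w ^ 2 * z ^ 2 := by nlinarith
  have h8 := neg_le_sq u
  have h9 := le_sq u
  rw [abs_lt]
  rcases hc with rfl | rfl | rfl <;> constructor <;> linarith

lemma good_five (u v w z c : ℤ) (hu : u ≠ 0) (hv : v ≠ 0) (hw : w ≠ 0) (hz : z ≠ 0)
    (hc : c = 1 ∨ c = 2 ∨ c = 4)
    (h1 : w ^ 2 - v ^ 2 = 5 * c ^ 2 * u ^ 2) (h2 : 81 * w ^ 2 - v ^ 2 = 5 * c ^ 2 * z ^ 2) :
    ∃ M e A B : ℤ, Sol M e A B ∧ |M| < u ^ 2 * v ^ 2 + w ^ 2 * z ^ 2 := by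
  have hc0 : c ≠ 0 := by rcases hc with rfl | rfl | rfl <;> norm_num
  refine ⟨c * z, c * u, 4 * w, 4 * v, ⟨mul_ne_zero hc0 hu, ?_, ?_⟩, ?_⟩
  · have : 5 * ((c * z) ^ 2 - ((c * u) ^ 2 + (4 * w) ^ 2)) = 0 := by
      linear_combination h1 - h2
    linarith
  · have : 5 * ((c * z) ^ 2 - (81 * (c * u) ^ 2 + (4 * v) ^ 2)) = 0 := by
      linear_combination 81 * h1 - h2
    linarith
  have hu2 := one_le_sq hu
  have hv2 := one_le_sq hv
  have hw2 := one_le_sq hw
  have hz2 := one_le_sq hz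
  have hc2 := one_le_sq hc0
  have h5 : 1 ≤ c ^ 2 * u ^ 2 := by nlinarith
  have h6 : 6 ≤ w ^ 2 := by linarith
  have h7 : 6 * z ^ 2 ≤ w ^ 2 * z ^ 2 := by nlinarith
  have h4 : 1 ≤ u ^ 2 * v ^ 2 := by nlinarith
  have h8 := neg_le_sq z
  have h9 := le_sq z
  rw [abs_lt]
  rcases hc with rfl | rfl | rfl <;> constructor <;> linarith


lemma not_both_even {a b : ℤ} (h : IsCoprime a b) : ¬ (a % 2 = 0 ∧ b % 2 = 0) := by
  rintro ⟨ha, hb⟩
  have h2 : IsUnit (2 : ℤ) := h.isUnit_of_dvd' (Int.dvd_of_emod_eq_zero ha)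
    (Int.dvd_of_emod_eq_zero hb)
  rw [Int.isUnit_iff] at h2
  omega

theorem transfer (u v w z k : ℤ) (hvw : IsCoprime v w) (huz : IsCoprime u z)
    (hu : u ≠ 0) (hv : v ≠ 0) (hw : w ≠ 0) (hz : z ≠ 0)
    (h1 : w ^ 2 - v ^ 2 = k * u ^ 2) (h2 : 81 * w ^ 2 - v ^ 2 = k * z ^ 2) :
    ∃ M e A B : ℤ, Sol M e A B ∧ |M| < u ^ 2 * v ^ 2 + w ^ 2 * z ^ 2 := by
  have hk80 : k ∣ 80 := by
    have hw80 : k ∣ 80 * w ^ 2 := ⟨z ^ 2 - u ^ 2, by linear_combination h2 - h1⟩
    have hv80 : k ∣ 80 * v ^ 2 := ⟨z ^ 2 - 81 * u ^ 2, by linear_combination h2 - 81 * h1⟩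
    obtain ⟨a, b, hab⟩ := (hvw.pow (m := 2) (n := 2))
    have : (80 : ℤ) = a * (80 * v ^ 2) + b * (80 * w ^ 2) := by linear_combination -80 * hab
    rw [this]
    exact dvd_add (Dvd.dvd.mul_left hv80 a) (Dvd.dvd.mul_left hw80 b)
  have hkn : k.natAbs ∈ Nat.divisors 80 := by
    rw [Nat.mem_divisors]
    exact ⟨by simpa using Int.natAbs_dvd_natAbs.mpr hk80, by norm_num⟩
  have hdiv : Nat.divisors 80 = {1, 2, 4, 5, 8, 10, 16, 20, 40, 80} := by decide +kernel
  rw [hdiv] at hkn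
  simp only [Finset.mem_insert, Finset.mem_singleton] at hkn
  have hvw' := not_both_even hvw
  have huz' := not_both_even huz
  have hk : k = 1 ∨ k = -1 ∨ k = 2 ∨ k = -2 ∨ k = 4 ∨ k = -4 ∨ k = 5 ∨ k = -5 ∨ k = 8 ∨ k = -8 ∨
      k = 10 ∨ k = -10 ∨ k = 16 ∨ k = -16 ∨ k = 20 ∨ k = -20 ∨ k = 40 ∨ k = -40 ∨ k = 80 ∨
      k = -80 := by omega
  rcases hk with rfl | rfl | rfl | rfl | rfl | rfl | rfl | rfl | rfl | rfl | rfl | rfl | rfl | rfl |
    rfl | rfl | rfl | rfl | rfl | rfl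
  · exact good_one u v w z 1 hu hv hw hz (by norm_num) (by norm_num) (by linarith) (by linarith)
  · exact good_neg_one u v w z 1 hu hv hw hz (by linarith) (by linarith)
  · exact (bad_k u v w z _ hvw' huz' h1 h2 (by norm_num)).elim
  · exact (bad_k u v w z _ hvw' huz' h1 h2 (by norm_num)).elim
  · exact good_one u v w z 2 hu hv hw hz (by norm_num) (by norm_num) (by linarith) (by linarith)
  · exact good_neg_one u v w z 2 hu hv hw hz (by linarith) (by linarith)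
  · exact good_five u v w z 1 hu hv hw hz (by norm_num) (by linarith) (by linarith)
  · exact good_neg_five u v w z 1 hu hv hw hz (by norm_num) (by linarith) (by linarith)
  · exact (bad_k u v w z _ hvw' huz' h1 h2 (by norm_num)).elim
  · exact (bad_k u v w z _ hvw' huz' h1 h2 (by norm_num)).elim
  · exact (bad_k u v w z _ hvw' huz' h1 h2 (by norm_num)).elim
  · exact (bad_k u v w z _ hvw' huz' h1 h2 (by norm_num)).elim
  · exact good_one u v w z 4 hu hv hw hz (by norm_num) (by norm_num) (by linarith) (by linarith)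
  · exact good_neg_one u v w z 4 hu hv hw hz (by linarith) (by linarith)
  · exact good_five u v w z 2 hu hv hw hz (by norm_num) (by linarith) (by linarith)
  · exact good_neg_five u v w z 2 hu hv hw hz (by norm_num) (by linarith) (by linarith)
  · exact (bad_k u v w z _ hvw' huz' h1 h2 (by norm_num)).elim
  · exact (bad_k u v w z _ hvw' huz' h1 h2 (by norm_num)).elim
  · exact good_five u v w z 4 hu hv hw hz (by norm_num) (by linarith) (by linarith)
  · exact good_neg_five u v w z 4 hu hv hw hz (by norm_num) (by linarith) (by linarith)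

/-- four-number lemma + passage to the family `transfer`. -/
theorem core (s t p q : ℤ) (hst : IsCoprime s t) (hs : s ≠ 0) (ht : t ≠ 0)
    (h1 : p * q = s * t) (h2 : 81 * p ^ 2 + q ^ 2 = s ^ 2 + t ^ 2) :
    ∃ M e A B : ℤ, Sol M e A B ∧ |M| < s ^ 2 + t ^ 2 := by
  have hg : 0 < Int.gcd s p := Int.gcd_pos_of_ne_zero_left _ hs
  obtain ⟨v, w, hvw, hsv, hpw⟩ := Int.exists_gcd_one hg
  set u : ℤ := (Int.gcd s p : ℤ) with hu_def
  have hu : u ≠ 0 := by
    have : (0 : ℤ) < u := by rw [hu_def]; exact_mod_cast hg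
    exact this.ne'
  have hv : v ≠ 0 := by
    rintro rfl
    exact hs (by rw [hsv]; ring)
  have hvw' : IsCoprime v w := Int.isCoprime_iff_gcd_eq_one.mpr hvw
  have h3 : w * q = v * t := by
    have : u * (w * q) = u * (v * t) := by
      calc u * (w * q) = p * q := by rw [hpw]; ring
        _ = s * t := h1
        _ = u * (v * t) := by rw [hsv]; ring
    exact mul_left_cancel₀ hu this
  have h4 : v ∣ q := hvw'.dvd_of_dvd_mul_left ⟨t, h3⟩
  obtain ⟨z, rfl⟩ := h4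
  have h5 : t = w * z := by
    have : v * t = v * (w * z) := by rw [← h3]; ring
    exact mul_left_cancel₀ hv this
  have hw : w ≠ 0 := by
    rintro rfl
    exact ht (by rw [h5]; ring)
  have hz : z ≠ 0 := by
    rintro rfl
    exact ht (by rw [h5]; ring)
  have huz : IsCoprime u z := by
    rw [hsv, h5] at hst
    exact hst.of_mul_left_right.of_mul_right_right
  have h6 : u ^ 2 * (81 * w ^ 2 - v ^ 2) = z ^ 2 * (w ^ 2 - v ^ 2) := by
    rw [hsv, hpw, h5] at h2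
    linear_combination h2
  have h7 : u ^ 2 ∣ w ^ 2 - v ^ 2 :=
    (huz.pow (m := 2) (n := 2)).dvd_of_dvd_mul_left ⟨_, h6.symm⟩
  obtain ⟨k, hk⟩ := h7
  have h8 : 81 * w ^ 2 - v ^ 2 = k * z ^ 2 := by
    have : u ^ 2 * (81 * w ^ 2 - v ^ 2) = u ^ 2 * (k * z ^ 2) := by
      rw [h6, hk]; ring
    exact mul_left_cancel₀ (pow_ne_zero 2 hu) this
  obtain ⟨M, e, A, B, hsol, hlt⟩ := transfer u v w z k hvw' huz hu hv hw hz (by rw [hk]; ring) h8
  refine ⟨M, e, A, B, hsol, ?_⟩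
  have : s ^ 2 + t ^ 2 = u ^ 2 * v ^ 2 + w ^ 2 * z ^ 2 := by
    rw [hsv, h5]; ring
  rw [this]
  exact hlt


lemma three_dvd_of_sq_add_sq (a b : ℤ) (h : (3 : ℤ) ∣ a ^ 2 + b ^ 2) : (3 : ℤ) ∣ a := by
  have h3 : (a ^ 2 + b ^ 2) % 3 = ((a % 3) ^ 2 + (b % 3) ^ 2) % 3 := by
    simp [pow_two, Int.add_emod, Int.mul_emod]
  have h0 : (a ^ 2 + b ^ 2) % 3 = 0 := Int.emod_eq_zero_of_dvd h
  have ha : a % 3 = 0 ∨ a % 3 = 1 ∨ a % 3 = 2 := by omega
  have hb : b % 3 = 0 ∨ b % 3 = 1 ∨ b % 3 = 2 := by omega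
  rcases ha with ha | ha | ha <;> rcases hb with hb | hb | hb <;> rw [ha, hb, h0] at h3 <;>
    first
    | exact Int.dvd_of_emod_eq_zero ha
    | (norm_num at h3)

lemma coprime_of_sq_eq {M e A : ℤ} (hcop : IsCoprime M e) (h1 : M ^ 2 = e ^ 2 + A ^ 2) :
    IsCoprime A e := by
  have h : IsCoprime (M ^ 2) e := hcop.pow_left
  rw [h1] at h
  have h' : e ^ 2 + A ^ 2 = A ^ 2 + e * e := by ring
  rw [h'] at h
  exact (IsCoprime.pow_left_iff (by norm_num)).mp (IsCoprime.of_add_mul_left_left h)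

theorem step (M e A B : ℤ) (hM : 0 < M) (hcop : IsCoprime M e) (h : Sol M e A B) :
    ∃ M' e' A' B' : ℤ, Sol M' e' A' B' ∧ |M'| < M := by
  obtain ⟨he, h1, h2⟩ := h
  have h3 : ¬ (3 : ℤ) ∣ M := by
    intro h3
    have h4 : (3 : ℤ) ∣ e ^ 2 + A ^ 2 := by
      rw [← h1]
      exact Dvd.dvd.pow h3 two_ne_zero
    have h5 := three_dvd_of_sq_add_sq e A h4
    have h6 : IsUnit (3 : ℤ) := hcop.isUnit_of_dvd' h3 h5
    rw [Int.isUnit_iff] at h6
    omega
  have hAe : IsCoprime A e := coprime_of_sq_eq hcop h1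
  have hM3 : IsCoprime M 3 := by
    rw [isCoprime_comm]
    exact (Int.prime_three.coprime_iff_not_dvd).mpr h3
  have hM9e : IsCoprime M (9 * e) := by
    have : IsCoprime M (3 ^ 2) := hM3.pow_right
    exact IsCoprime.mul_right (by norm_num at this; exact this) hcop
  have h2' : M ^ 2 = (9 * e) ^ 2 + B ^ 2 := by rw [h2]; ring
  have hBe : IsCoprime B (9 * e) := coprime_of_sq_eq hM9e h2'
  rcases Int.emod_two_eq_zero_or_one e with hpar | hpar
  · -- e even
    have hA1 : A % 2 = 1 := by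
      have := not_both_even hAe
      omega
    have hB1 : B % 2 = 1 := by
      have := not_both_even hBe
      omega
    have hp1 : PythagoreanTriple A e M := by
      unfold PythagoreanTriple
      linear_combination -h1
    have hp2 : PythagoreanTriple B (9 * e) M := by
      unfold PythagoreanTriple
      linear_combination -h2'
    obtain ⟨s, t, hA, hest, hMst, hgst, -, -⟩ :=
      hp1.coprime_classification' (Int.isCoprime_iff_gcd_eq_one.mp hAe) hA1 hM
    obtain ⟨p, q, hB, hepq, hMpq, hgpq, -, -⟩ :=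
      hp2.coprime_classification' (Int.isCoprime_iff_gcd_eq_one.mp hBe) hB1 hM
    have hst : IsCoprime s t := Int.isCoprime_iff_gcd_eq_one.mpr hgst
    have hpq : IsCoprime p q := Int.isCoprime_iff_gcd_eq_one.mpr hgpq
    have hs : s ≠ 0 := by
      rintro rfl
      exact he (by rw [hest]; ring)
    have ht : t ≠ 0 := by
      rintro rfl
      exact he (by rw [hest]; ring)
    have hprod : p * q = 9 * (s * t) := by
      have : 2 * (p * q) = 2 * (9 * (s * t)) := by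
        calc 2 * (p * q) = 9 * e := by rw [hepq]; ring
          _ = 2 * (9 * (s * t)) := by rw [hest]; ring
      linarith
    have h3pq : (3 : ℤ) ∣ p * q := ⟨3 * (s * t), by rw [hprod]; ring⟩
    have h9pq : (3 : ℤ) ^ 2 ∣ p * q := ⟨s * t, by rw [hprod]; ring⟩
    rw [hMst]
    rcases Int.prime_three.dvd_or_dvd h3pq with h3p | h3q
    · have hc : IsCoprime (3 : ℤ) q := hpq.of_isCoprime_of_dvd_left h3p
      have h9p : (3 : ℤ) ^ 2 ∣ p := (hc.pow_left).dvd_of_dvd_mul_right h9pq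
      obtain ⟨p', rfl⟩ := h9p
      refine core s t p' q hst hs ht (by linarith) ?_
      rw [← hMst, hMpq]; ring
    · have hc : IsCoprime (3 : ℤ) p := hpq.symm.of_isCoprime_of_dvd_left h3q
      have h9q : (3 : ℤ) ^ 2 ∣ q := (hc.pow_left).dvd_of_dvd_mul_left h9pq
      obtain ⟨q', rfl⟩ := h9q
      refine core s t q' p hst hs ht (by linarith) ?_
      rw [← hMst, hMpq]; ring
  · -- e odd : impossible
    exfalso
    have hp1 : PythagoreanTriple e A M := by
      unfold PythagoreanTriple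
      linear_combination -h1
    have hp2 : PythagoreanTriple (9 * e) B M := by
      unfold PythagoreanTriple
      linear_combination -h2'
    obtain ⟨s, t, hest, -, hMst, -, hparst, -⟩ :=
      hp1.coprime_classification' (Int.isCoprime_iff_gcd_eq_one.mp hAe.symm) hpar hM
    obtain ⟨p, q, hepq, -, hMpq, -, hparpq, -⟩ :=
      hp2.coprime_classification' (Int.isCoprime_iff_gcd_eq_one.mp hBe.symm) (by omega) hM
    rcases sq_cases s with ⟨hs, hs2⟩ | ⟨hs, hs2⟩ <;> rcases sq_cases t with ⟨ht, ht2⟩ | ⟨ht, ht2⟩ <;>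
    rcases sq_cases p with ⟨hp, hp2⟩ | ⟨hp, hp2⟩ <;> rcases sq_cases q with ⟨hq, hq2⟩ | ⟨hq, hq2⟩ <;>
    omega

theorem no_sol : ∀ (n : ℕ) (M e A B : ℤ), M.natAbs = n → ¬ Sol M e A B := by
  intro n
  induction n using Nat.strong_induction_on with
  | _ n ih =>
  intro M e A B hn hsol
  obtain ⟨he, h1, h2⟩ := hsol
  have hM : M ≠ 0 := by
    rintro rfl
    have := one_le_sq he
    nlinarith [sq_nonneg A]
  by_cases hcop : IsCoprime M e
  · -- primitive
    have habs : 0 < |M| := abs_pos.mpr hM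
    have hcop' : IsCoprime |M| e := by
      rcases abs_choice M with h | h <;> rw [h]
      · exact hcop
      · exact hcop.neg_left
    obtain ⟨M', e', A', B', hsol', hlt⟩ := step |M| e A B habs hcop'
      ⟨he, by rw [sq_abs]; exact h1, by rw [sq_abs]; exact h2⟩
    refine ih M'.natAbs ?_ M' e' A' B' rfl hsol'
    rw [← hn]
    zify
    exact hlt
  · have hg : 0 < Int.gcd M e := Int.gcd_pos_of_ne_zero_left _ hM
    obtain ⟨M', e', -, hM', he'⟩ := Int.exists_gcd_one hg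
    set g : ℤ := (Int.gcd M e : ℤ) with hg_def
    have hg0 : 0 < g := by rw [hg_def]; exact_mod_cast hg
    have hg1 : g ≠ 1 := by
      intro h
      apply hcop
      rw [Int.isCoprime_iff_gcd_eq_one]
      rw [hg_def] at h
      exact_mod_cast h
    have hg2 : 2 ≤ g := by omega
    have hA : g ∣ A := by
      rw [← Int.pow_dvd_pow_iff (n := 2) two_ne_zero]
      exact ⟨M' ^ 2 - e' ^ 2, by rw [hM', he'] at h1; linear_combination -h1⟩
    have hB : g ∣ B := by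
      rw [← Int.pow_dvd_pow_iff (n := 2) two_ne_zero]
      exact ⟨M' ^ 2 - 81 * e' ^ 2, by rw [hM', he'] at h2; linear_combination -h2⟩
    obtain ⟨A', rfl⟩ := hA
    obtain ⟨B', rfl⟩ := hB
    have hg2' : g ^ 2 ≠ 0 := pow_ne_zero 2 hg0.ne'
    have hM'0 : M' ≠ 0 := by
      rintro rfl
      exact hM (by rw [hM']; ring)
    refine ih M'.natAbs ?_ M' e' A' B' rfl ⟨?_, ?_, ?_⟩
    · rw [← hn]
      zify
      rw [hM', abs_mul, abs_of_pos hg0]
      have : 0 < |M'| := abs_pos.mpr hM'0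
      nlinarith
    · rintro rfl
      exact he (by rw [he']; ring)
    · apply mul_left_cancel₀ hg2'
      rw [hM', he'] at h1
      linear_combination h1
    · apply mul_left_cancel₀ hg2'
      rw [hM', he'] at h2
      linear_combination h2

theorem not_sol (M e A B : ℤ) : ¬ Sol M e A B := no_sol _ M e A B rfl


/-- integral form: `X = (v/w)^2` on `Y^2 = X (X-1) (X-81)`. -/
theorem int_points (v w N : ℤ) (hvw : IsCoprime v w) (hw : w ≠ 0)
    (h : (v ^ 2 - w ^ 2) * (v ^ 2 - 81 * w ^ 2) = N ^ 2) :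
    v = 0 ∨ v ^ 2 = w ^ 2 ∨ v ^ 2 = 81 * w ^ 2 := by
  by_contra hcon
  push Not at hcon
  obtain ⟨hv, hne1, hne2⟩ := hcon
  set a : ℤ := w ^ 2 - v ^ 2 with ha_def
  set b : ℤ := 81 * w ^ 2 - v ^ 2 with hb_def
  have ha : a ≠ 0 := by
    intro h0
    apply hne1
    linarith
  have hb : b ≠ 0 := by
    intro h0
    apply hne2
    linarith
  have hab : a * b = N ^ 2 := by rw [← h, ha_def, hb_def]; ring
  have hg : 0 < Int.gcd a b := Int.gcd_pos_of_ne_zero_left _ ha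
  obtain ⟨a', b', hcop, ha', hb'⟩ := Int.exists_gcd_one hg
  set g : ℤ := (Int.gcd a b : ℤ) with hg_def
  have hg0 : 0 < g := by rw [hg_def]; exact_mod_cast hg
  have hgN : g ∣ N := by
    rw [← Int.pow_dvd_pow_iff (n := 2) two_ne_zero]
    exact ⟨a' * b', by rw [← hab, ha', hb']; ring⟩
  obtain ⟨N', rfl⟩ := hgN
  have hab' : a' * b' = N' ^ 2 := by
    apply mul_left_cancel₀ (pow_ne_zero 2 hg0.ne')
    rw [ha', hb'] at hab
    linear_combination hab
  have ha'0 : a' ≠ 0 := by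
    rintro rfl
    exact ha (by rw [ha']; ring)
  have hb'0 : b' ≠ 0 := by
    rintro rfl
    exact hb (by rw [hb']; ring)
  obtain ⟨u, hu⟩ := Int.sq_of_gcd_eq_one hcop hab'
  obtain ⟨z, hz⟩ := Int.sq_of_gcd_eq_one (by rwa [Int.gcd_comm]) (by rw [mul_comm]; exact hab')
  have hu0 : u ≠ 0 := by
    rintro rfl
    rcases hu with h | h <;> exact ha'0 (by rw [h]; ring)
  have hz0 : z ≠ 0 := by
    rintro rfl
    rcases hz with h | h <;> exact hb'0 (by rw [h]; ring)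
  have hcop' : IsCoprime a' b' := Int.isCoprime_iff_gcd_eq_one.mpr hcop
  have huz : IsCoprime u z := by
    have h1 : IsCoprime (u ^ 2) (z ^ 2) := by
      rcases hu with h | h <;> rcases hz with h' | h' <;> rw [h, h'] at hcop'
      · exact hcop'
      · simpa using hcop'.neg_right
      · simpa using hcop'.neg_left
      · simpa using hcop'.neg_left.neg_right
    exact (IsCoprime.pow_iff (by norm_num) (by norm_num)).mp h1
  have hpos : 0 < a' * b' := by
    rw [hab']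
    have : N' ≠ 0 := by
      rintro rfl
      have : a' * b' = 0 := by rw [hab']; ring
      exact (mul_ne_zero ha'0 hb'0) this
    positivity
  have hu2 := one_le_sq hu0
  have hz2 := one_le_sq hz0
  rcases hu with h | h <;> rcases hz with h' | h'
  · obtain ⟨M, e, A, B, hsol, -⟩ := transfer u v w z g hvw huz hu0 hv hw hz0
      (by rw [← ha_def, ha', h]; ring) (by rw [← hb_def, hb', h']; ring)
    exact not_sol _ _ _ _ hsol
  · rw [h, h'] at hpos
    nlinarith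
  · rw [h, h'] at hpos
    nlinarith
  · obtain ⟨M, e, A, B, hsol, -⟩ := transfer u v w z (-g) hvw huz hu0 hv hw hz0
      (by rw [← ha_def, ha', h]; ring) (by rw [← hb_def, hb', h']; ring)
    exact not_sol _ _ _ _ hsol

/-- rational squares `X = r^2` on `Y^2 = X (X-1) (X-81)`. -/
theorem rat_sq_points (r ρ : ℚ) (h : (r ^ 2 - 1) * (r ^ 2 - 81) = ρ ^ 2) :
    r = 0 ∨ r ^ 2 = 1 ∨ r ^ 2 = 81 := by
  have hw : (r.den : ℤ) ≠ 0 := by exact_mod_cast r.den_nz
  have hwq : (r.den : ℚ) ≠ 0 := by exact_mod_cast r.den_nz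
  have hr : r = (r.num : ℚ) / (r.den : ℚ) := (Rat.num_div_den r).symm
  have hcop : IsCoprime r.num (r.den : ℤ) := Rat.isCoprime_num_den r
  have hsq : IsSquare (((r.num ^ 2 - (r.den : ℤ) ^ 2) * (r.num ^ 2 - 81 * (r.den : ℤ) ^ 2) : ℤ) : ℚ) := by
    refine ⟨ρ * (r.den : ℚ) ^ 2, ?_⟩
    have : ρ * (r.den : ℚ) ^ 2 * (ρ * (r.den : ℚ) ^ 2) = ρ ^ 2 * (r.den : ℚ) ^ 4 := by ring
    rw [this, ← h]
    push_cast
    have key : ∀ n d : ℚ, d ≠ 0 → r = n / d →
        (n ^ 2 - d ^ 2) * (n ^ 2 - 81 * d ^ 2) = (r ^ 2 - 1) * (r ^ 2 - 81) * d ^ 4 := by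
      intro n d hd hr
      rw [hr]
      field_simp
    exact key _ _ hwq hr
  rw [Rat.isSquare_intCast_iff] at hsq
  obtain ⟨N, hN⟩ := hsq
  rcases int_points r.num r.den N hcop hw (by rw [hN]; ring) with h0 | h1 | h2
  · left
    exact Rat.num_eq_zero.mp h0
  · right; left
    rw [hr, div_pow, div_eq_one_iff_eq (pow_ne_zero 2 hwq)]
    exact_mod_cast h1
  · right; right
    rw [hr, div_pow, div_eq_iff (pow_ne_zero 2 hwq)]
    exact_mod_cast h2

/-- **Theorem R**: the rational points of `y^2 = A (A - 9) (A - 25)` (a model of `X₀(15)`). -/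
theorem ratPoints (A y : ℚ) (h : y ^ 2 = A * (A - 9) * (A - 25)) :
    A = 0 ∨ A = 9 ∨ A = 25 ∨ A = 45 ∨ A = 5 := by
  by_cases h25 : A = 25
  · right; right; left; exact h25
  have hD : A - 25 ≠ 0 := sub_ne_zero.mpr h25
  have hr2 : (y / (A - 25)) ^ 2 = A * (A - 9) / (A - 25) := by
    rw [div_pow, h]
    field_simp
  have h1 : (y / (A - 25)) ^ 2 - 1 = (A - 5) ^ 2 / (A - 25) := by
    rw [hr2]
    field_simp
    ring
  have h81 : (y / (A - 25)) ^ 2 - 81 = (A - 45) ^ 2 / (A - 25) := by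
    rw [hr2]
    field_simp
    ring
  rcases rat_sq_points (y / (A - 25)) ((A - 5) * (A - 45) / (A - 25))
    (by rw [h1, h81]; field_simp) with h0 | h0 | h0
  · have hy : y = 0 := by
      rcases div_eq_zero_iff.mp h0 with h | h
      · exact h
      · exact absurd h hD
    rw [hy] at h
    have : A * (A - 9) * (A - 25) = 0 := by rw [← h]; ring
    rcases mul_eq_zero.mp this with h | h
    · rcases mul_eq_zero.mp h with h | h
      · left; exact h
      · right; left; linarith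
    · exact absurd h hD
  · rw [h0] at h1
    have : (A - 5) ^ 2 = 0 := by
      have := h1.symm
      rw [sub_self, div_eq_zero_iff] at this
      rcases this with h | h
      · exact h
      · exact absurd h hD
    right; right; right; right
    have := pow_eq_zero_iff (two_ne_zero) |>.mp this
    linarith
  · rw [h0] at h81
    have : (A - 45) ^ 2 = 0 := by
      have := h81.symm
      rw [sub_self, div_eq_zero_iff] at this
      rcases this with h | h
      · exact h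
      · exact absurd h hD
    right; right; right; left
    have := pow_eq_zero_iff (two_ne_zero) |>.mp this
    linarith

end FAX015
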